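import Fermat.Agent.Transference.Basic

/-!
# The best small linear forms of a vector

On each dyadic range `‖m‖ ≤ 2 ^ j` a form `bestForm x j` makes `m · x` as near an integer as
possible, and it only changes when it has to: a new one has norm above `2 ^ j / 2`.
-/

set_option autoImplicit false

noncomputable section

open Finset

namespace FA.InhomogeneousBad

open FA.Transference

variable {d : ℕ}

/-- The distance of `m · x` from the nearest integer. -/
def formDist (x : Fin d → ℝ) (m : Fin d → ℤ) : ℝ :=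
  |∑ i, (m i : ℝ) * x i - round (∑ i, (m i : ℝ) * x i)|

/-- The nonzero forms with `‖m‖ ≤ 2 ^ j`. -/
def formBox (d j : ℕ) : Set (Fin d → ℤ) := {m | m ≠ 0 ∧ ‖m‖ ≤ 2 ^ j}

theorem formBox_finite (j : ℕ) : (formBox d j).Finite :=
  (Set.Finite.pi fun _ => Set.finite_Icc (-(2 ^ j : ℤ)) (2 ^ j)).subset fun m hm i _ => by
    have h := (norm_le_pi_norm m i).trans hm.2
    rw [Int.norm_eq_abs] at h
    exact Set.mem_Icc.2 (abs_le.1 (by exact_mod_cast h))

/-- Dirichlet's theorem on a linear form. -/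
theorem exists_formDist_le (hd : 0 < d) (x : Fin d → ℝ) {T : ℕ} (hT : 0 < T) :
    ∃ m : Fin d → ℤ, m ≠ 0 ∧ ‖m‖ ≤ T ∧ formDist x m ≤ 1 / (T : ℝ) ^ d := by
  set S : (Fin d → Fin (T + 1)) → ℝ := fun v => ∑ i, ((v i : ℕ) : ℝ) * x i with hS
  have hTR : (0 : ℝ) < (T : ℝ) ^ d := pow_pos (Nat.cast_pos.2 hT) d
  have h0 : ∀ v, 0 ≤ Int.fract (S v) * (T : ℝ) ^ d :=
    fun v => mul_nonneg (Int.fract_nonneg _) hTR.le
  have hlt : ∀ v, ⌊Int.fract (S v) * (T : ℝ) ^ d⌋₊ < T ^ d := fun v => by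
    rw [Nat.floor_lt (h0 v), Nat.cast_pow]
    exact mul_lt_of_lt_one_left hTR (Int.fract_lt_one _)
  obtain ⟨v, w, hvw, he⟩ := Fintype.exists_ne_map_eq_of_card_lt
    (fun v => (⟨_, hlt v⟩ : Fin (T ^ d)))
    (by simpa using Nat.pow_lt_pow_left (Nat.lt_succ_self T) hd.ne')
  have he' : ⌊Int.fract (S v) * (T : ℝ) ^ d⌋₊ = ⌊Int.fract (S w) * (T : ℝ) ^ d⌋₊ :=
    congrArg Fin.val he
  have hfl : |Int.fract (S v) * (T : ℝ) ^ d - Int.fract (S w) * (T : ℝ) ^ d| < 1 :=
    Int.abs_sub_lt_one_of_floor_eq_floor (by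
      rw [← Int.natCast_floor_eq_floor (h0 v), ← Int.natCast_floor_eq_floor (h0 w),
        he'])
  rw [← sub_mul, abs_mul, abs_of_pos hTR, ← lt_div_iff₀ hTR] at hfl
  refine ⟨fun i => ((v i : ℕ) : ℤ) - ((w i : ℕ) : ℤ), fun h0 => hvw (funext fun i => ?_), ?_, ?_⟩
  · have := congrFun h0 i
    simp only [Pi.zero_apply] at this
    exact Fin.ext (by omega)
  · refine (pi_norm_le_iff_of_nonneg (Nat.cast_nonneg T)).2 fun i => ?_
    have h1 : |((v i : ℕ) : ℤ) - ((w i : ℕ) : ℤ)| ≤ (T : ℤ) := by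
      have := (v i).isLt
      have := (w i).isLt
      rw [abs_le]
      omega
    rw [Int.norm_eq_abs]
    exact_mod_cast h1
  · refine le_trans ?_ hfl.le
    rw [formDist]
    refine (round_le _ (⌊S v⌋ - ⌊S w⌋)).trans_eq ?_
    simp only [Int.fract, hS, Int.cast_sub, Int.cast_natCast, sub_mul, sum_sub_distrib]
    ring_nf

theorem exists_isBest (hd : 0 < d) (x : Fin d → ℝ) (j : ℕ) :
    ∃ m ∈ formBox d j, ∀ m' ∈ formBox d j, formDist x m ≤ formDist x m' := by
  obtain ⟨m, hm, hmT, -⟩ := exists_formDist_le hd x (T := 2 ^ j) (by positivity)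
  exact Set.exists_min_image _ _ (formBox_finite j) ⟨m, hm, by exact_mod_cast hmT⟩

open Classical in
/-- A best form for each `j`, kept as long as possible. -/
def bestForm (hd : 0 < d) (x : Fin d → ℝ) : ℕ → Fin d → ℤ
  | 0 => (exists_isBest hd x 0).choose
  | j + 1 =>
    if ∀ m ∈ formBox d (j + 1), formDist x (bestForm hd x j) ≤ formDist x m then bestForm hd x j
    else (exists_isBest hd x (j + 1)).choose

theorem bestForm_spec (hd : 0 < d) (x : Fin d → ℝ) :
    ∀ j, bestForm hd x j ∈ formBox d j ∧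
      ∀ m ∈ formBox d j, formDist x (bestForm hd x j) ≤ formDist x m := by
  intro j
  induction j with
  | zero => exact (exists_isBest hd x 0).choose_spec
  | succ j ih =>
    rw [bestForm]
    split_ifs with h
    · exact ⟨⟨ih.1.1, ih.1.2.trans (pow_le_pow_right₀ one_le_two j.le_succ)⟩, h⟩
    · exact (exists_isBest hd x (j + 1)).choose_spec

theorem bestForm_ne_zero (hd : 0 < d) (x : Fin d → ℝ) (j : ℕ) : bestForm hd x j ≠ 0 :=
  (bestForm_spec hd x j).1.1

theorem formDist_bestForm_le (hd : 0 < d) (x : Fin d → ℝ) (j : ℕ) :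
    formDist x (bestForm hd x j) ≤ 1 / ((2 : ℝ) ^ j) ^ d := by
  obtain ⟨m, hm, hmT, hle⟩ := exists_formDist_le hd x (T := 2 ^ j) (by positivity)
  rw [Nat.cast_pow, Nat.cast_ofNat] at hmT hle
  exact ((bestForm_spec hd x j).2 m ⟨hm, hmT⟩).trans hle

/-- The forms that are new at `j`. -/
def IsNewForm (hd : 0 < d) (x : Fin d → ℝ) (j : ℕ) : Prop :=
  ∀ i, i < j → bestForm hd x i ≠ bestForm hd x j

theorem exists_isNewForm (hd : 0 < d) (x : Fin d → ℝ) (j : ℕ) :
    ∃ i, IsNewForm hd x i ∧ bestForm hd x i = bestForm hd x j := by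
  classical
  have hex : ∃ i, bestForm hd x i = bestForm hd x j := ⟨j, rfl⟩
  refine ⟨Nat.find hex, fun i hi e => Nat.find_min hex hi (e.trans (Nat.find_spec hex)),
    Nat.find_spec hex⟩

/-- A new form has a large norm. -/
theorem IsNewForm.two_pow_le {hd : 0 < d} {x : Fin d → ℝ} {j : ℕ} (h : IsNewForm hd x j) :
    (2 : ℝ) ^ j ≤ 2 * ‖bestForm hd x j‖ := by
  rcases j with _ | j
  · rw [pow_zero]
    linarith [one_le_norm_intVector (bestForm_ne_zero hd x 0)]
  by_contra! hlt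
  have hmem : bestForm hd x (j + 1) ∈ formBox d j :=
    ⟨bestForm_ne_zero hd x _, by rw [pow_succ] at hlt; linarith⟩
  have hne := h j j.lt_succ_self
  rw [bestForm] at hne hmem
  split_ifs at hne hmem with hold
  · exact hne rfl
  · refine hold fun m hm => ?_
    exact ((bestForm_spec hd x j).2 _ hmem).trans
      ((exists_isBest hd x (j + 1)).choose_spec.2 m hm)

end FA.InhomogeneousBad
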