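import Fermat.Agent.InhomogeneousBad.BestForms
import Fermat.Agent.SchmidtGames.Avoidance
import Fermat.Agent.SchmidtGames.UnitForms

/-!
# Inhomogeneously badly approximable targets are winning

A target `γ` with every `m_j · γ` away from the integers, `m_j` the best forms of `x`, stays away
from all `q x - p`; and such targets avoid a lacunary family of hyperplanes.
-/

set_option autoImplicit false

noncomputable section

open Finset

namespace FA.InhomogeneousBad

open FA.Transference FA.SchmidtGames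

variable {d : ℕ}

/-- The targets `γ` with `max |q x i - p i - γ i| ≥ c / |q| ^ (1 / d)` for all `q ≠ 0`. -/
def badTargets (x : Fin d → ℝ) : Set (Fin d → ℝ) :=
  {γ | ∃ c : ℝ, 0 < c ∧ ∀ q : ℤ, q ≠ 0 → ∀ p : Fin d → ℤ,
    ∃ i, c / |(q : ℝ)| ^ (1 / (d : ℝ)) ≤ |(q : ℝ) * x i - p i - γ i|}

/-- The targets on which the best forms of `x` stay away from the integers. -/
def awayTargets (hd : 0 < d) (x : Fin d → ℝ) : Set (Fin d → ℝ) :=
  {γ | ∃ δ : ℝ, 0 < δ ∧ ∀ j, ∀ n : ℤ, δ ≤ |∑ i, (bestForm hd x j i : ℝ) * γ i - n|}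

/-- The transference from the best forms to the targets. -/
theorem awayTargets_subset (hd : 0 < d) (x : Fin d → ℝ) : awayTargets hd x ⊆ badTargets x := by
  rintro γ ⟨δ, hδ, h⟩
  have hdR : (0 : ℝ) < d := by exact_mod_cast hd
  obtain ⟨A, hA⟩ := exists_nat_gt (2 / δ)
  have hA0 : (0 : ℝ) < A := lt_trans (by positivity) hA
  have hA1 : (1 : ℝ) ≤ A := by exact_mod_cast (show 0 < A from by exact_mod_cast hA0)
  refine ⟨δ / (8 * d * A), by positivity, fun q hq p => ?_⟩
  by_contra! hall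
  set Q : ℝ := |(q : ℝ)| with hQ
  have hQ1 : 1 ≤ Q := by rw [hQ]; exact_mod_cast Int.one_le_abs hq
  set R : ℝ := (A : ℝ) * Q ^ (1 / (d : ℝ)) with hR
  have hR1 : 1 ≤ R := one_le_mul_of_one_le_of_one_le hA1 (Real.one_le_rpow hQ1 (by positivity))
  have hex : ∃ j : ℕ, R ≤ (2 : ℝ) ^ j :=
    (pow_unbounded_of_one_lt R one_lt_two).imp fun _ h => h.le
  set j := Nat.find hex with hj
  have hj1 : R ≤ (2 : ℝ) ^ j := Nat.find_spec hex
  have hj2 : (2 : ℝ) ^ j ≤ 2 * R := by
    rcases Nat.eq_zero_or_pos j with h0 | h0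
    · rw [h0, pow_zero]
      linarith
    · obtain ⟨i, hi⟩ := Nat.exists_eq_succ_of_ne_zero h0.ne'
      have := not_le.1 (Nat.find_min hex (show i < j by omega))
      rw [hi, pow_succ]
      linarith
  set m := bestForm hd x j
  set n₀ := round (∑ i, (m i : ℝ) * x i) with hn₀
  set c : ℝ := δ / (8 * d * A) with hc
  have hbox := (bestForm_spec hd x j).1.2
  have hsmall : Q * |∑ i, (m i : ℝ) * x i - n₀| ≤ δ / 2 := by
    refine (mul_le_mul_of_nonneg_left (formDist_bestForm_le hd x j) (abs_nonneg _)).trans ?_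
    have h1 : Q * (A : ℝ) ≤ ((2 : ℝ) ^ j) ^ d := by
      refine le_trans ?_ (pow_le_pow_left₀ (by linarith) hj1 d)
      rw [hR, mul_pow, one_div, Real.rpow_inv_natCast_pow (by linarith) hd.ne', mul_comm]
      exact mul_le_mul_of_nonneg_right (le_self_pow₀ hA1 hd.ne') (by linarith)
    rw [mul_one_div, div_le_iff₀ (by positivity)]
    rw [div_lt_iff₀ hδ] at hA
    nlinarith
  have hε : |∑ i, (m i : ℝ) * ((q : ℝ) * x i - p i - γ i)| ≤ δ / 4 := by
    refine (abs_sum_le_sum_abs _ _).trans ?_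
    refine (sum_le_card_nsmul _ _ (2 * R * (c / Q ^ (1 / (d : ℝ)))) fun i _ => ?_).trans_eq ?_
    · rw [abs_mul, ← Int.norm_eq_abs]
      exact mul_le_mul (((norm_le_pi_norm m i).trans hbox).trans hj2) (hall i).le (abs_nonneg _)
        (by linarith)
    · have : Q ^ (1 / (d : ℝ)) ≠ 0 := (Real.rpow_pos_of_pos (by linarith) _).ne'
      rw [card_univ, Fintype.card_fin, nsmul_eq_mul, hR, hc]
      field_simp
      ring
  have hkey := h j (q * n₀ - ∑ i, m i * p i)
  have e : ∑ i, (m i : ℝ) * γ i - ((q * n₀ - ∑ i, m i * p i : ℤ) : ℝ) =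
      (q : ℝ) * (∑ i, (m i : ℝ) * x i - n₀) -
        ∑ i, (m i : ℝ) * ((q : ℝ) * x i - p i - γ i) := by
    simp only [Int.cast_sub, Int.cast_mul, Int.cast_sum, mul_sub, sum_sub_distrib]
    rw [mul_sum, sum_congr rfl fun i _ => mul_left_comm (q : ℝ) (m i : ℝ) (x i)]
    ring
  rw [e] at hkey
  have := (abs_sub _ _).trans' hkey
  rw [abs_mul, ← hQ] at this
  linarith

theorem sum_abs_pos {m : Fin d → ℤ} (hm : m ≠ 0) : 0 < ∑ k, |(m k : ℝ)| := by
  obtain ⟨i, hi⟩ := Function.ne_iff.1 hm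
  exact sum_pos' (fun k _ => abs_nonneg _) ⟨i, mem_univ _, abs_pos.2 (Int.cast_ne_zero.2 hi)⟩

/-- **The inhomogeneously badly approximable targets of every `x` are `α`-winning.** -/
theorem isWinning_badTargets (hd : 0 < d) (x : Fin d → ℝ) {α : ℝ} (hα : 0 < α)
    (hα2 : α ≤ 1 / 2) : IsWinning α (badTargets x) := by
  classical
  set V : Finset (Fin d → ℝ) := univ.image signVec with hV
  have hVn : ∀ v ∈ V, ‖v‖ ≤ 1 := fun v hv => by
    obtain ⟨w, -, rfl⟩ := mem_image.1 hv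
    exact norm_signVec_le w
  set m : ℕ → Fin d → ℤ := fun k => bestForm hd x (k - d) with hm
  have hm0 : ∀ k, m k ≠ 0 := fun k => bestForm_ne_zero hd x _
  have hcov : ∀ k, (∃ v ∈ V, unitForm (fun i => (m k i : ℝ)) v = 1) ∧
      ∃ v ∈ V, unitForm (fun i => (m k i : ℝ)) v = -1 := fun k =>
    have ⟨⟨v, hv⟩, w, hw⟩ := exists_signVec (sum_abs_pos (hm0 k))
    ⟨⟨_, mem_image_of_mem _ (mem_univ v), hv⟩, _, mem_image_of_mem _ (mem_univ w), hw⟩
  set Z : ℕ → Set ℝ := fun k =>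
    {z | d ≤ k ∧ IsNewForm hd x (k - d) ∧ ∃ n : ℤ, z = n / ∑ i, |(m k i : ℝ)|} with hZ
  have hsum : ∀ k, d ≤ k → ∑ i, |(m k i : ℝ)| ≤ (2 : ℝ) ^ k := by
    intro k hk
    refine (sum_le_card_nsmul _ _ ((2 : ℝ) ^ (k - d)) fun i _ => ?_).trans ?_
    · rw [← Int.norm_eq_abs]
      exact (norm_le_pi_norm _ i).trans (bestForm_spec hd x _).1.2
    · rw [card_univ, Fintype.card_fin, nsmul_eq_mul]
      conv_rhs => rw [← Nat.add_sub_cancel' hk, pow_add]
      gcongr
      exact_mod_cast d.lt_two_pow_self.le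
  refine (isWinning_avoidPlanes (X := Fin d → ℝ) one_lt_two hVn
    (fun k v => abs_unitForm_le (sum_abs_pos (hm0 k)) v) hcov (Z := Z) ?_ hα hα2).mono
    fun γ hγ => ?_
  · rintro k _ ⟨hk, -, n, rfl⟩ _ ⟨-, -, n', rfl⟩ hne
    rw [← sub_div, abs_div, abs_of_pos (sum_abs_pos (hm0 k))]
    have hnn : n - n' ≠ 0 := sub_ne_zero.2 fun e => hne (by rw [e])
    have h1 : (1 : ℝ) ≤ |(n : ℝ) - n'| := by exact_mod_cast Int.one_le_abs hnn
    exact div_le_div₀ (abs_nonneg _) h1 (sum_abs_pos (hm0 k)) (hsum k hk)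
  · obtain ⟨c, hc, h⟩ := hγ
    refine awayTargets_subset hd x ⟨c / (2 * 2 ^ d), by positivity, fun j n => ?_⟩
    obtain ⟨i, hi, hie⟩ := exists_isNewForm hd x j
    have hk := h (i + d) _ ⟨Nat.le_add_left _ _, by rwa [Nat.add_sub_cancel], n, rfl⟩
    simp only [hm, Nat.add_sub_cancel, hie] at hk
    set w := ∑ k, |(bestForm hd x j k : ℝ)| with hw
    have hw0 : 0 < w := sum_abs_pos (bestForm_ne_zero hd x j)
    rw [unitForm_apply, ← hw, ← sub_div, abs_div, abs_of_pos hw0, le_div_iff₀ hw0] at hk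
    refine le_trans ?_ hk
    have hbig : (2 : ℝ) ^ i ≤ 2 * w := by
      have h1 := hi.two_pow_le
      rw [hie] at h1
      obtain ⟨l, hl⟩ := exists_norm_eq_apply hd (bestForm hd x j)
      rw [hl] at h1
      linarith [single_le_sum (fun k _ => abs_nonneg ((bestForm hd x j k : ℤ) : ℝ))
        (mem_univ l)]
    rw [pow_add, div_mul_eq_mul_div, div_le_div_iff₀ (by positivity) (by positivity)]
    have := mul_le_mul_of_nonneg_left hbig (by positivity : (0 : ℝ) ≤ c * 2 ^ d)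
    linarith

end FA.InhomogeneousBad
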